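import Mathlib

/-!
# MOONSHOT S52, block K1, leaf I (generic mod-3 irreducibility), part (I-a)

The 3-division polynomial of the Tate normal form `y² + (1 - t) x y - t y = x³ - t x²`
(the universal curve over `X₁(5)`) is

  `ψ₃ = 3 x⁴ + (t² - 6 t + 1) x³ + 3 (t² - t) x² + 3 t² x - t³`.

It has **no root in `k(t)`** for any field `k` of characteristic zero.  Proof: a root is integral
over `k[t]`, hence a polynomial `p(t)`; comparing degrees, `deg p ≤ 2`; writing
`p = c₂ t² + c₁ t + c₀` the coefficients of `t⁸, t⁷, t⁶, t⁵, t³, t⁰` of `ψ₃(p)` give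
`c₂³ (3 c₂ + 1) = 0`, then (`c₂ = -1/3`) `c₁ = 2`, `c₀ = 8/3`, contradicting `c₀³ (3 c₀ + 1) = 0`,
resp. (`c₂ = 0`) `c₁ = 0` and `-1 = 0`.  The coefficients are extracted by Lagrange interpolation
at the nine points `0, ±1, ±2, ±3, ±4`.

* `tatePsi3_poly_ne_zero` : no polynomial root;
* `tatePsi3_ratFunc_ne_zero` : no root in `RatFunc k`;
* `tatePsi3_ne_zero_of_mem_adjoin` : no root in `k(t) ⊆ K` for `t ∈ K` transcendental over `k`.
-/

set_option autoImplicit false

open Polynomial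

namespace Fermat.Agent.SW.K1i.TatePsi3

/-- The 3-division polynomial of the Tate normal form with parameter `t`, evaluated at `x`. -/
def tatePsi3 {R : Type*} [CommRing R] (t x : R) : R :=
  3 * x ^ 4 + (t ^ 2 - 6 * t + 1) * x ^ 3 + 3 * (t ^ 2 - t) * x ^ 2 + 3 * t ^ 2 * x - t ^ 3

theorem map_tatePsi3 {R S : Type*} [CommRing R] [CommRing S] (f : R →+* S) (t x : R) :
    f (tatePsi3 t x) = tatePsi3 (f t) (f x) := by
  simp only [tatePsi3, map_sub, map_add, map_mul, map_pow, map_ofNat, map_one]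

section Scalar

variable {k : Type*} [Field k] [CharZero k]

/-- The values of `ψ₃` along a quadratic `x = c₂ τ² + c₁ τ + c₀` cannot vanish at all the nine
points `0, ±1, ±2, ±3, ±4`. -/
theorem not_forall_quadratic (c₂ c₁ c₀ : k)
    (h : ∀ τ : k, tatePsi3 τ (c₂ * τ ^ 2 + c₁ * τ + c₀) = 0) : False := by
  have h0 := h 0
  have h1 := h 1
  have hm1 := h (-1)
  have h2 := h 2
  have hm2 := h (-2)
  have h3 := h 3
  have hm3 := h (-3)
  have h4 := h 4
  have hm4 := h (-4)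
  simp only [tatePsi3] at h0 h1 hm1 h2 hm2 h3 hm3 h4 hm4
  have e8 : 3 * c₂ ^ 4 + c₂ ^ 3 = 0 := by
    linear_combination (1 / 576 : k) * h0 - (1 / 720 : k) * h1 - (1 / 720 : k) * hm1
      + (1 / 1440 : k) * h2 + (1 / 1440 : k) * hm2 - (1 / 5040 : k) * h3 - (1 / 5040 : k) * hm3
      + (1 / 40320 : k) * h4 + (1 / 40320 : k) * hm4
  have e7 : 12 * c₂ ^ 3 * c₁ - 6 * c₂ ^ 3 + 3 * c₂ ^ 2 * c₁ = 0 := by
    linear_combination -(1 / 720 : k) * h1 + (1 / 720 : k) * hm1
      + (1 / 720 : k) * h2 - (1 / 720 : k) * hm2 - (1 / 1680 : k) * h3 + (1 / 1680 : k) * hm3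
      + (1 / 10080 : k) * h4 - (1 / 10080 : k) * hm4
  have e6 : 12 * c₂ ^ 3 * c₀ + c₂ ^ 3 + 18 * c₂ ^ 2 * c₁ ^ 2 - 18 * c₂ ^ 2 * c₁ + 3 * c₂ ^ 2 * c₀
      + 3 * c₂ ^ 2 + 3 * c₂ * c₁ ^ 2 = 0 := by
    linear_combination -(5 / 96 : k) * h0 + (29 / 720 : k) * h1 + (29 / 720 : k) * hm1
      - (13 / 720 : k) * h2 - (13 / 720 : k) * hm2 + (1 / 240 : k) * h3 + (1 / 240 : k) * hm3
      - (1 / 2880 : k) * h4 - (1 / 2880 : k) * hm4
  have e5 : 36 * c₂ ^ 2 * c₁ * c₀ + 3 * c₂ ^ 2 * c₁ - 18 * c₂ ^ 2 * c₀ - 3 * c₂ ^ 2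
      + 12 * c₂ * c₁ ^ 3 - 18 * c₂ * c₁ ^ 2 + 6 * c₂ * c₁ * c₀ + 6 * c₂ * c₁ + c₁ ^ 3 = 0 := by
    linear_combination (29 / 720 : k) * h1 - (29 / 720 : k) * hm1
      - (13 / 360 : k) * h2 + (13 / 360 : k) * hm2 + (1 / 80 : k) * h3 - (1 / 80 : k) * hm3
      - (1 / 720 : k) * h4 + (1 / 720 : k) * hm4
  have e3 : 36 * c₂ * c₁ * c₀ ^ 2 + 6 * c₂ * c₁ * c₀ - 18 * c₂ * c₀ ^ 2 - 6 * c₂ * c₀
      + 12 * c₁ ^ 3 * c₀ + c₁ ^ 3 - 18 * c₁ ^ 2 * c₀ - 3 * c₁ ^ 2 + 3 * c₁ * c₀ ^ 2 + 6 * c₁ * c₀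
      + 3 * c₁ - 1 = 0 := by
    linear_combination -(61 / 180 : k) * h1 + (61 / 180 : k) * hm1
      + (169 / 720 : k) * h2 - (169 / 720 : k) * hm2 - (1 / 20 : k) * h3 + (1 / 20 : k) * hm3
      + (7 / 1440 : k) * h4 - (7 / 1440 : k) * hm4
  have e0 : 3 * c₀ ^ 4 + c₀ ^ 3 = 0 := by linear_combination h0
  have hc₂ : c₂ = 0 ∨ c₂ = -1 / 3 := by
    have : c₂ ^ 3 * (3 * c₂ + 1) = 0 := by linear_combination e8
    rcases mul_eq_zero.mp this with h | h
    · exact Or.inl (pow_eq_zero_iff (by norm_num) |>.mp h)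
    · right
      field_simp
      linear_combination h
  rcases hc₂ with rfl | rfl
  · have hc₁ : c₁ = 0 := by
      have : c₁ ^ 3 = 0 := by linear_combination e5
      exact pow_eq_zero_iff (by norm_num) |>.mp this
    subst hc₁
    have : (1 : k) = 0 := by linear_combination -e3
    exact one_ne_zero this
  · have hc₁ : c₁ = 2 := by linear_combination (-9 : k) * e7
    subst hc₁
    have hc₀ : c₀ = 8 / 3 := by linear_combination (-9 : k) * e6
    subst hc₀
    have : (4608 : k) / 27 = 0 := by linear_combination e0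
    norm_num at this

omit [CharZero k] in
/-- A polynomial of degree at most two is `c₂ X² + c₁ X + c₀`. -/
theorem eq_quadratic_of_natDegree_le_two {p : k[X]} (hp : p.natDegree ≤ 2) :
    p = C (p.coeff 2) * X ^ 2 + C (p.coeff 1) * X + C (p.coeff 0) := by
  ext n
  simp only [coeff_add, coeff_C_mul, coeff_X_pow, coeff_X, coeff_C]
  rcases n with _ | _ | _ | n
  · simp
  · simp
  · simp
  · have : p.coeff (n + 1 + 1 + 1) = 0 := coeff_eq_zero_of_natDegree_lt (by omega)
    rw [this]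
    simp

/-- **No polynomial root.** -/
theorem tatePsi3_poly_ne_zero (p : k[X]) : tatePsi3 (X : k[X]) p ≠ 0 := by
  intro h
  have h3 : (3 : k) ≠ 0 := by norm_num
  -- degree bound
  have hdeg : p.natDegree ≤ 2 := by
    by_contra hd
    push Not at hd
    have key : C (3 : k) * p ^ 4 =
        -((X ^ 2 - 6 * X + 1) * p ^ 3 + 3 * (X ^ 2 - X) * p ^ 2 + 3 * X ^ 2 * p - X ^ 3) := by
      rw [tatePsi3] at h
      simp only [map_ofNat]
      linear_combination h
    have hp0 : p ≠ 0 := by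
      rintro rfl
      simp at hd
    have h1 : (C (3 : k) * p ^ 4).natDegree = 4 * p.natDegree := by
      rw [natDegree_C_mul h3, natDegree_pow]
    have h2 : (-((X ^ 2 - 6 * X + 1) * p ^ 3 + 3 * (X ^ 2 - X) * p ^ 2 + 3 * X ^ 2 * p
        - X ^ 3 : k[X])).natDegree ≤ 3 * p.natDegree + 2 := by
      rw [natDegree_neg]
      have a1 : ((X ^ 2 - 6 * X + 1 : k[X]) * p ^ 3).natDegree ≤ 3 * p.natDegree + 2 := by
        refine (natDegree_mul_le).trans ?_
        have : (X ^ 2 - 6 * X + 1 : k[X]).natDegree ≤ 2 := by compute_degree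
        have : (p ^ 3).natDegree ≤ 3 * p.natDegree := natDegree_pow_le
        omega
      have a2 : ((3 : k[X]) * (X ^ 2 - X) * p ^ 2).natDegree ≤ 3 * p.natDegree + 2 := by
        refine (natDegree_mul_le).trans ?_
        have : ((3 : k[X]) * (X ^ 2 - X)).natDegree ≤ 2 := by compute_degree
        have : (p ^ 2).natDegree ≤ 2 * p.natDegree := natDegree_pow_le
        omega
      have a3 : ((3 : k[X]) * X ^ 2 * p).natDegree ≤ 3 * p.natDegree + 2 := by
        refine (natDegree_mul_le).trans ?_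
        have : ((3 : k[X]) * X ^ 2).natDegree ≤ 2 := by compute_degree
        omega
      have a4 : ((X : k[X]) ^ 3).natDegree ≤ 3 * p.natDegree + 2 := by
        rw [natDegree_X_pow]
        omega
      refine (natDegree_sub_le _ _).trans (max_le ?_ a4)
      refine (natDegree_add_le _ _).trans (max_le ?_ a3)
      exact (natDegree_add_le _ _).trans (max_le a1 a2)
    rw [← key, h1] at h2
    omega
  -- the quadratic form of `p`
  have hp := eq_quadratic_of_natDegree_le_two hdeg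
  refine not_forall_quadratic (p.coeff 2) (p.coeff 1) (p.coeff 0) fun τ => ?_
  have := congrArg (eval τ) h
  rw [hp] at this
  simpa [tatePsi3] using this

/-- **No root in `k(t)`.** -/
theorem tatePsi3_ratFunc_ne_zero (x : RatFunc k) : tatePsi3 (RatFunc.X : RatFunc k) x ≠ 0 := by
  intro h
  have h3 : (3 : k) ≠ 0 := by norm_num
  have hint : IsIntegral k[X] x := by
    refine ⟨X ^ 4 + (C (C (1 / 3) * (X ^ 2 - 6 * X + 1)) * X ^ 3
        + C (C (1 / 3) * (3 * (X ^ 2 - X))) * X ^ 2 + C (C (1 / 3) * (3 * X ^ 2)) * X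
        - C (C (1 / 3) * X ^ 3)), ?_, ?_⟩
    · refine monic_X_pow_add ?_
      refine lt_of_le_of_lt (degree_le_of_natDegree_le (n := 3) ?_) (by norm_num)
      compute_degree
    · have hx : (algebraMap k[X] (RatFunc k)) X = RatFunc.X := RatFunc.algebraMap_X
      have hc : (algebraMap k[X] (RatFunc k)) (C (1 / 3 : k)) = (1 / 3 : RatFunc k) := by
        rw [RatFunc.algebraMap_C, map_div₀, map_one, map_ofNat]
      have f3 : algebraMap k[X] (RatFunc k) (C (1 / 3) * (X ^ 2 - 6 * X + 1)) =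
          (1 / 3) * (RatFunc.X ^ 2 - 6 * RatFunc.X + 1) := by
        rw [map_mul, hc, map_add, map_sub, map_pow, map_mul, hx, map_one, map_ofNat]
      have f2 : algebraMap k[X] (RatFunc k) (C (1 / 3) * (3 * (X ^ 2 - X))) =
          (1 / 3) * (3 * (RatFunc.X ^ 2 - RatFunc.X)) := by
        rw [map_mul, hc, map_mul, map_sub, map_pow, hx, map_ofNat]
      have f1 : algebraMap k[X] (RatFunc k) (C (1 / 3) * (3 * X ^ 2)) =
          (1 / 3) * (3 * RatFunc.X ^ 2) := by
        rw [map_mul, hc, map_mul, map_pow, hx, map_ofNat]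
      have f0 : algebraMap k[X] (RatFunc k) (C (1 / 3) * X ^ 3) = (1 / 3) * RatFunc.X ^ 3 := by
        rw [map_mul, hc, map_pow, hx]
      simp only [eval₂_add, eval₂_sub, eval₂_mul, eval₂_pow, eval₂_X, eval₂_C, f3, f2, f1, f0]
      rw [tatePsi3] at h
      linear_combination (1 / 3 : RatFunc k) * h
  obtain ⟨p, rfl⟩ := IsIntegrallyClosed.isIntegral_iff.mp hint
  have h1 : algebraMap k[X] (RatFunc k) (tatePsi3 X p) = 0 := by
    rw [map_tatePsi3, RatFunc.algebraMap_X]
    exact h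
  have h2 : tatePsi3 (X : k[X]) p = 0 :=
    (map_eq_zero_iff _ (IsFractionRing.injective k[X] (RatFunc k))).mp h1
  exact tatePsi3_poly_ne_zero p h2

/-- **No root in `k(t) ⊆ K`** for `t ∈ K` transcendental over `k`. -/
theorem tatePsi3_ne_zero_of_mem_adjoin {K : Type*} [Field K] [Algebra k K] {t : K}
    (ht : Transcendental k t) {x : K} (hx : x ∈ IntermediateField.adjoin k {t}) :
    tatePsi3 t x ≠ 0 := by
  intro h
  have hinj : Function.Injective (aeval t : k[X] →ₐ[k] K) :=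
    transcendental_iff_injective.mp ht
  set φ : RatFunc k →ₐ[k] K := RatFunc.liftAlgHom (aeval t)
    (nonZeroDivisors_le_comap_nonZeroDivisors_of_injective _ hinj) with hφ
  have hφinj : Function.Injective φ := RatFunc.liftAlgHom_injective _ hinj
  have hφX : φ RatFunc.X = t := by
    rw [hφ, ← RatFunc.algebraMap_X, RatFunc.liftAlgHom_apply]
    simp
  obtain ⟨r, s, hrs⟩ := (IntermediateField.mem_adjoin_simple_iff k x).mp hx
  have hy : φ (algebraMap k[X] (RatFunc k) r / algebraMap k[X] (RatFunc k) s) = x := by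
    rw [hφ, RatFunc.liftAlgHom_apply_div, hrs]
  have h1 : φ (tatePsi3 RatFunc.X
      (algebraMap k[X] (RatFunc k) r / algebraMap k[X] (RatFunc k) s)) = 0 := by
    rw [← AlgHom.coe_toRingHom, map_tatePsi3, AlgHom.coe_toRingHom, hφX, hy]
    exact h
  exact tatePsi3_ratFunc_ne_zero _ ((map_eq_zero_iff _ hφinj).mp h1)

end Scalar

end Fermat.Agent.SW.K1i.TatePsi3
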